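import Fermat.Statements.S49
import Fermat.Prelude.Thm_CuspForm_intLattice_fg
import Fermat.Prelude.Thm_CuspForm_mem_intLattice_of_mem_heckeAlgebra
import Fermat.Prelude.Thm_ModularFormClass_qCoeff_heckeT
import Fermat.Prelude.Thm_ModularFormClass_qCoeff_heckeU
import Fermat.Prelude.Thm_CongruenceSubgroup_one_mem_strictPeriods_Gamma0

set_option autoImplicit false

namespace Fermat.Agent.S49

open CuspForm EisensteinWeightOne CongruenceSubgroup ModularFormClass UpperHalfPlane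

variable {N : ℕ} {k : ℤ}

theorem hGamma (N : ℕ) :
    (1 : ℝ) ∈ (Subgroup.map (Matrix.SpecialLinearGroup.mapGL ℝ) (Gamma0 N)).strictPeriods :=
  CongruenceSubgroup.one_mem_strictPeriods_Gamma0 N

theorem qc_add (f g : CuspForm (Gamma0 N) k) (n : ℕ) :
    qCoeff ⇑(f + g) n = qCoeff ⇑f n + qCoeff ⇑g n := by
  simp only [qCoeff, FunLike.coe_add]
  rw [ModularForm.qExpansion_add one_pos (hGamma N) f g, map_add]

theorem qc_zero (n : ℕ) : qCoeff ⇑(0 : CuspForm (Gamma0 N) k) n = 0 := by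
  simp only [qCoeff, FunLike.coe_zero]
  rw [UpperHalfPlane.qExpansion_zero, map_zero]

theorem qc_smul (c : ℂ) (f : CuspForm (Gamma0 N) k) (n : ℕ) :
    qCoeff ⇑(c • f) n = c * qCoeff ⇑f n := by
  have h1 : ⇑(c • f) = c • ⇑f := by
    ext z
    simp
  simp only [qCoeff, h1]
  rw [ModularForm.qExpansion_smul one_pos (hGamma N) c f]
  simp

theorem qc_neg (f : CuspForm (Gamma0 N) k) (n : ℕ) :
    qCoeff ⇑(-f) n = - qCoeff ⇑f n := by
  have : -f = (-1 : ℂ) • f := by simp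
  rw [this, qc_smul]
  ring

theorem qc_sub (f g : CuspForm (Gamma0 N) k) (n : ℕ) :
    qCoeff ⇑(f - g) n = qCoeff ⇑f n - qCoeff ⇑g n := by
  rw [sub_eq_add_neg, qc_add, qc_neg, sub_eq_add_neg]

theorem qc_zsmul (c : ℤ) (f : CuspForm (Gamma0 N) k) (n : ℕ) :
    qCoeff ⇑(c • f) n = c * qCoeff ⇑f n := by
  have : c • f = (c : ℂ) • f := by
    rw [Int.cast_smul_eq_zsmul]
  rw [this, qc_smul]

theorem qc_cusp_zero (f : CuspForm (Gamma0 N) k) : qCoeff ⇑f 0 = 0 := by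
  simp only [qCoeff]
  exact CuspFormClass.qExpansion_coeff_zero f one_pos (hGamma N)

/-- q-expansion principle for cusp forms. -/
theorem eq_zero_of_qc (f : CuspForm (Gamma0 N) k) (h : ∀ n, qCoeff ⇑f n = 0) : f = 0 := by
  have hq : qExpansion 1 ⇑f = 0 := by
    ext n
    simpa [qCoeff] using h n
  have hper := SlashInvariantFormClass.periodic_comp_ofComplex (f := f) (h := 1) (hGamma N)
  have : Fact (IsCusp OnePoint.infty
      (Subgroup.map (Matrix.SpecialLinearGroup.mapGL ℝ) (Gamma0 N))) :=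
    ⟨Subgroup.isCusp_of_mem_strictPeriods one_pos (hGamma N)⟩
  have h0 : (⇑f : ℍ → ℂ) = 0 :=
    (UpperHalfPlane.qExpansion_eq_zero_iff one_pos (by simpa using hper) (CuspFormClass.holo f)
      (ModularFormClass.bdd_at_infty f)).mp hq
  exact DFunLike.coe_injective (h0.trans (FunLike.coe_zero).symm)

/-- The integral lattice as an explicit submodule. -/
def intSub (N : ℕ) (k : ℤ) : Submodule ℤ (CuspForm (Gamma0 N) k) where
  carrier := {f | ∀ n : ℕ, ∃ m : ℤ, qCoeff f n = (m : ℂ)}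
  add_mem' {f g} hf hg n := by
    obtain ⟨a, ha⟩ := hf n
    obtain ⟨b, hb⟩ := hg n
    exact ⟨a + b, by rw [qc_add, ha, hb]; push_cast; ring⟩
  zero_mem' n := ⟨0, by rw [qc_zero]; simp⟩
  smul_mem' c {f} hf n := by
    obtain ⟨a, ha⟩ := hf n
    exact ⟨c * a, by rw [qc_zsmul, ha]; push_cast; ring⟩

theorem intLattice_eq_intSub (N : ℕ) (k : ℤ) : CuspForm.intLattice N k = intSub N k :=
  Submodule.span_eq (intSub N k)

theorem mem_intLattice_iff_qc (f : CuspForm (Gamma0 N) k) :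
    f ∈ CuspForm.intLattice N k ↔ ∀ n : ℕ, ∃ m : ℤ, qCoeff f n = (m : ℂ) := by
  rw [intLattice_eq_intSub]
  rfl

theorem qIntegralSet_subset_intLattice (N : ℕ) :
    CuspForm.qIntegralSet N ⊆ (CuspForm.intLattice N 2 : Set (CuspForm (Gamma0 N) 2)) := by
  intro f hf
  rw [SetLike.mem_coe, mem_intLattice_iff_qc]
  intro n
  obtain ⟨m, hm⟩ := Subring.mem_bot.mp (hf n)
  exact ⟨m, hm.symm⟩

theorem qc_heckeT {p : ℕ} (hp : p.Prime) (hpN : ¬ p ∣ N) (f : CuspForm (Gamma0 N) k) (n : ℕ) :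
    qCoeff ⇑(CuspForm.heckeTLin k hp hpN f) n =
      qCoeff ⇑f (n * p) + if p ∣ n then (p : ℂ) ^ (k - 1) * qCoeff ⇑f (n / p) else 0 := by
  rw [CuspForm.coe_heckeTLin_apply, ModularFormClass.qCoeff_heckeT f (hGamma N) hp.ne_zero n]
  rfl

theorem qc_heckeU [NeZero N] {p : ℕ} (hp : p ≠ 0) (hpN : p ∣ N) (f : CuspForm (Gamma0 N) k)
    (n : ℕ) :
    qCoeff ⇑(CuspForm.heckeULin k hpN f) n = qCoeff ⇑f (n * p) := by
  rw [CuspForm.coe_heckeULin_apply, ModularFormClass.qCoeff_heckeU f (hGamma N) hp n]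
  rfl

end Fermat.Agent.S49
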