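import Mathlib

set_option autoImplicit false

namespace Fermat.Agent.S49

open Module Polynomial

/-- An endomorphism of a `K`-module which stabilises a finitely generated `ℤ`-submodule that
spans over `K` is integral over `ℤ`. -/
theorem isIntegral_of_mapsTo_lattice {K V : Type*} [CommRing K] [AddCommGroup V] [Module K V]
    (L : Submodule ℤ V) (hfg : L.FG) (hspan : Submodule.span K (L : Set V) = ⊤)
    (T : Module.End K V) (hT : ∀ x ∈ L, T x ∈ L) : IsIntegral ℤ T := by
  have : Module.Finite ℤ L := Module.Finite.iff_fg.mpr hfg
  let T' : Module.End ℤ L := (T.restrictScalars ℤ).restrict hT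
  have hT' : ∀ x : L, ((T' x : L) : V) = T (x : V) := fun x => rfl
  obtain ⟨p, hpm, hp⟩ := LinearMap.exists_monic_and_aeval_eq_zero ℤ T'
  refine ⟨p, hpm, ?_⟩
  have key : ∀ (q : ℤ[X]) (x : L), (Polynomial.aeval T q) (x : V) =
      (((Polynomial.aeval T' q) x : L) : V) := by
    intro q
    induction q using Polynomial.induction_on with
    | C a =>
      intro x
      simp
    | add p q hp hq =>
      intro x
      simp [hp, hq]
    | monomial n a ih =>
      intro x
      have e1 : (aeval T) (C a * X ^ (n + 1)) = (aeval T) (C a * X ^ n) * T := by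
        rw [pow_succ, ← mul_assoc, map_mul, aeval_X]
      have e2 : (aeval T') (C a * X ^ (n + 1)) = (aeval T') (C a * X ^ n) * T' := by
        rw [pow_succ, ← mul_assoc, map_mul, aeval_X]
      rw [e1, e2, Module.End.mul_apply, Module.End.mul_apply, ← hT', ih]
  change Polynomial.aeval T p = 0
  apply LinearMap.ext_on hspan
  intro x hx
  have := key p ⟨x, hx⟩
  rw [hp] at this
  simpa using this

end Fermat.Agent.S49
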