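import Mathlib
import Fermat.Prelude.Def_FormalHecke_Eigensystem

set_option autoImplicit false

namespace Fermat.Agent.S49

open FormalHecke

variable {R : Type*} [CommRing R]

theorem eig_prime_pow {e a : ℕ → R} (h : IsEigensystem e a) (ℓ r : ℕ) (hℓ : ℓ.Prime) :
    a (ℓ ^ (r + 2)) = a ℓ * a (ℓ ^ (r + 1)) - e ℓ * a (ℓ ^ r) := by
  have h1 := h.2 ℓ hℓ (ℓ ^ (r + 1))
  have hdvd : ℓ ∣ ℓ ^ (r + 1) := dvd_pow_self ℓ (Nat.succ_ne_zero r)
  have hdiv : ℓ ^ (r + 1) / ℓ = ℓ ^ r := by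
    rw [pow_succ, Nat.mul_div_cancel _ hℓ.pos]
  rw [if_pos hdvd, hdiv, ← pow_succ'] at h1
  rw [← h1]
  ring

theorem eig_prime_pow_mul {e a : ℕ → R} (h : IsEigensystem e a) (ℓ : ℕ) (hℓ : ℓ.Prime)
    (n : ℕ) (hn : ¬ ℓ ∣ n) : ∀ r : ℕ, a (ℓ ^ r * n) = a (ℓ ^ r) * a n := by
  intro r
  induction r using Nat.twoStepInduction with
  | zero => simp [h.1]
  | one =>
    have h1 := h.2 ℓ hℓ n
    rw [if_neg hn, mul_zero, add_zero] at h1
    simpa using h1
  | more r ih0 ih1 =>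
    have h1 := h.2 ℓ hℓ (ℓ ^ (r + 1) * n)
    have hdvd : ℓ ∣ ℓ ^ (r + 1) * n := Dvd.dvd.mul_right (dvd_pow_self ℓ (Nat.succ_ne_zero r)) n
    have hdiv : ℓ ^ (r + 1) * n / ℓ = ℓ ^ r * n := by
      rw [pow_succ, mul_assoc, mul_comm ℓ n, ← mul_assoc, Nat.mul_div_cancel _ hℓ.pos]
    rw [if_pos hdvd, hdiv, ← mul_assoc, ← pow_succ', ih0, ih1] at h1
    rw [eig_prime_pow h ℓ r hℓ]
    have : a (ℓ ^ (r + 1 + 1) * n) = a ℓ * (a (ℓ ^ (r + 1)) * a n) - e ℓ * (a (ℓ ^ r) * a n) := by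
      rw [← h1]; ring
    rw [this]
    ring

theorem eig_coprime_mul {e a : ℕ → R} (h : IsEigensystem e a) :
    ∀ m n : ℕ, m.Coprime n → a (m * n) = a m * a n := by
  intro m
  induction m using Nat.recOnPrimeCoprime with
  | zero =>
    intro n hn
    rw [Nat.coprime_zero_left] at hn
    subst hn
    simp [h.1]
  | prime_pow p k hp =>
    intro n hn
    rcases Nat.eq_zero_or_pos k with rfl | hk
    · simp [h.1]
    · have hpn : ¬ p ∣ n := by
        have := (Nat.coprime_pow_left_iff hk p n).mp hn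
        exact (Nat.Prime.coprime_iff_not_dvd hp).mp this
      exact eig_prime_pow_mul h p hp n hpn k
  | coprime x y _ _ hxy hx hy =>
    intro n hn
    have hxn : x.Coprime n := Nat.Coprime.coprime_mul_right hn
    have hyn : y.Coprime n := Nat.Coprime.coprime_mul_left hn
    have hx_yn : x.Coprime (y * n) := Nat.Coprime.mul_right hxy hxn
    rw [mul_assoc, hx _ hx_yn, hy _ hyn, hx _ hxy, mul_assoc]

theorem isRecursive_of_isEigensystem {e a : ℕ → R} (h : IsEigensystem e a) :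
    IsRecursive e a :=
  ⟨h.1, eig_coprime_mul h, fun ℓ r hℓ => eig_prime_pow h ℓ r hℓ⟩

/-- A sequence satisfying Hecke eigen-relations at all primes with vanishing `0`th and `1`st
term vanishes identically. -/
theorem eig_zero {e b : ℕ → R} (h0 : b 0 = 0) (h1 : b 1 = 0)
    (h : ∀ ℓ : ℕ, ℓ.Prime → ∃ c : R, ∀ n : ℕ,
      b (ℓ * n) + e ℓ * (if ℓ ∣ n then b (n / ℓ) else 0) = c * b n) : ∀ n, b n = 0 := by
  intro n
  induction n using Nat.strong_induction_on with
  | _ n ih =>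
    rcases n with _ | _ | n
    · exact h0
    · exact h1
    · have hm : n + 2 ≠ 1 := by omega
      have hℓ : (n + 2).minFac.Prime := Nat.minFac_prime hm
      obtain ⟨k, hk⟩ : (n + 2).minFac ∣ n + 2 := Nat.minFac_dvd (n + 2)
      obtain ⟨c, hc⟩ := h _ hℓ
      have hklt : k < n + 2 := by
        have h2 := hℓ.two_le
        have hkpos : 0 < k := by
          rcases Nat.eq_zero_or_pos k with rfl | hk0
          · omega
          · exact hk0
        calc k < (n + 2).minFac * k := by nlinarith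
          _ = n + 2 := hk.symm
      have h3 := hc k
      have hk' : b (k / (n + 2).minFac) = 0 :=
        ih _ (lt_of_le_of_lt (Nat.div_le_self _ _) hklt)
      rw [← hk, ih k hklt, hk'] at h3
      simpa using h3

end Fermat.Agent.S49
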