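import Fermat.Agent.S49.Hecke3
import Fermat.Agent.S49.Formal

set_option autoImplicit false

namespace Fermat.Agent.S49

open CuspForm EisensteinWeightOne CongruenceSubgroup ModularFormClass UpperHalfPlane

variable {N : ℕ}

theorem span_intLattice_eq_top (h : CuspForm.HasIntegralBasis N) :
    Submodule.span ℂ (CuspForm.intLattice N 2 : Set (VV N)) = ⊤ := by
  rw [eq_top_iff]
  have h' : Submodule.span ℂ (CuspForm.qIntegralSet N) = ⊤ := h
  rw [← h']
  exact Submodule.span_mono (qIntegralSet_subset_intLattice N)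

theorem finite_of_hasIntegralBasis [NeZero N] (h : CuspForm.HasIntegralBasis N) :
    Module.Finite ℂ (VV N) := by
  obtain ⟨S, hS⟩ := CuspForm.intLattice_fg N 2
  refine ⟨⟨S, ?_⟩⟩
  rw [eq_top_iff, ← span_intLattice_eq_top h, ← hS]
  apply Submodule.span_le.mpr
  exact Submodule.span_le_restrictScalars ℤ ℂ _

variable [NeZero N]

/-- The eigenvalue of the `ℓ`-th Hecke operator under a map `φ` on the Hecke algebra. -/
noncomputable def eigval (φ : TT N → ℂ) (ℓ : ℕ) (hℓ : ℓ.Prime) : ℂ :=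
  if hN : ℓ ∣ N then φ (heckeAlgebra.U hℓ hN (Set.notMem_empty ℓ))
  else φ (heckeAlgebra.T hℓ hN (Set.notMem_empty ℓ))

theorem eigen_rel (φ : TT N → ℂ) (g : VV N)
    (hg : ∀ T : TT N, (T : Module.End ℂ (VV N)) g = φ T • g) (ℓ : ℕ) (hℓ : ℓ.Prime) (n : ℕ) :
    qCoeff ⇑g (ℓ * n) + (if ℓ ∣ N then 0 else (ℓ : ℂ)) *
      (if ℓ ∣ n then qCoeff ⇑g (n / ℓ) else 0) = eigval φ ℓ hℓ * qCoeff ⇑g n := by
  unfold eigval
  by_cases hN : ℓ ∣ N
  · simp only [if_pos hN, dif_pos hN, zero_mul, add_zero]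
    have h1 := hg (heckeAlgebra.U hℓ hN (Set.notMem_empty ℓ))
    rw [heckeAlgebra.coe_U] at h1
    have h2 := congrArg (fun x : VV N => qCoeff ⇑x n) h1
    simp only [qc_heckeU hℓ.ne_zero, qc_smul] at h2
    rw [mul_comm ℓ n]
    exact h2
  · simp only [if_neg hN, dif_neg hN]
    have h1 := hg (heckeAlgebra.T hℓ hN (Set.notMem_empty ℓ))
    rw [heckeAlgebra.coe_T] at h1
    have h2 := congrArg (fun x : VV N => qCoeff ⇑x n) h1
    simp only [qc_heckeT, qc_smul] at h2
    rw [mul_comm ℓ n, ← h2]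
    split_ifs <;> norm_num

end Fermat.Agent.S49
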