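import Fermat.Agent.S49.LinAlg

set_option autoImplicit false

namespace Fermat.Agent.S49

open Module

section Lift

variable {K V A : Type*} [Field K] [IsAlgClosed K] [AddCommGroup V] [Module K V]
  [CommRing A]

omit [IsAlgClosed K] in
/-- The eigencharacter attached to a common eigenvector. -/
theorem exists_ringHom_of_common_eigenvector (ρ : A →+* Module.End K V) (v : V) (hv : v ≠ 0)
    (h : ∀ a : A, ∃ μ : K, ρ a v = μ • v) :
    ∃ φ : A →+* K, ∀ a, ρ a v = φ a • v := by
  choose φ hφ using h
  have hinj : ∀ x y : K, x • v = y • v → x = y := fun x y hxy =>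
    smul_left_injective K hv hxy
  refine ⟨{ toFun := φ, map_one' := ?_, map_mul' := ?_, map_zero' := ?_, map_add' := ?_ }, hφ⟩
  · apply hinj
    rw [← hφ, map_one, Module.End.one_apply, one_smul]
  · intro a b
    apply hinj
    rw [← hφ, map_mul, Module.End.mul_apply, hφ b, map_smul, hφ a, smul_smul, mul_comm]
  · apply hinj
    rw [← hφ, map_zero, LinearMap.zero_apply, zero_smul]
  · intro a b
    apply hinj
    rw [← hφ, map_add, LinearMap.add_apply, hφ a, hφ b, add_smul]

/-- Localisation trick: for a prime ideal `I` of a commutative ring acting faithfully on a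
finite-dimensional space over an algebraically closed field, there is a common eigenvector
whose eigencharacter has kernel inside `I`. -/
theorem exists_eigenvector_ker_le [FiniteDimensional K V] (ρ : A →+* Module.End K V)
    (hρ : Function.Injective ρ) (I : Ideal A) [hI : I.IsPrime] :
    ∃ (v : V) (φ : A →+* K), v ≠ 0 ∧ (∀ a, ρ a v = φ a • v) ∧ RingHom.ker φ ≤ I := by
  classical
  -- choose `s₀ ∉ I` with kernel of maximal dimension
  let d : A → ℕ := fun s => finrank K (LinearMap.ker (ρ s))
  have hd_le : ∀ s, d s ≤ finrank K V := fun s => Submodule.finrank_le _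
  obtain ⟨s₀, hs₀I, hs₀max⟩ :=
    (measure fun s : A => finrank K V - d s).wf.has_min {s : A | s ∉ I}
      ⟨1, fun h => hI.ne_top ((Ideal.eq_top_iff_one I).mpr h)⟩
  have hs₀I' : s₀ ∉ I := hs₀I
  have hmax : ∀ s, s ∉ I → d s ≤ d s₀ := by
    intro s hs
    have h1 := hs₀max s hs
    have h2 : ¬ (finrank K V - d s < finrank K V - d s₀) := h1
    have := hd_le s
    have := hd_le s₀
    omega
  have hker : ∀ s, s ∉ I → LinearMap.ker (ρ (s * s₀)) = LinearMap.ker (ρ s₀) := by
    intro s hs
    have hss₀ : s * s₀ ∉ I := fun h => (hI.mem_or_mem h).elim hs hs₀I'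
    have hle : LinearMap.ker (ρ s₀) ≤ LinearMap.ker (ρ (s * s₀)) := by
      intro x hx
      rw [LinearMap.mem_ker] at hx ⊢
      rw [map_mul, Module.End.mul_apply, hx, map_zero]
    exact (Submodule.eq_of_le_of_finrank_le hle (hmax _ hss₀)).symm
  -- the stable subspace
  let W : Submodule K V := LinearMap.range (ρ s₀)
  have hWne : W ≠ ⊥ := by
    intro h
    have h0 : ρ s₀ = 0 := LinearMap.range_eq_bot.mp h
    have : s₀ = 0 := hρ (h0.trans (map_zero ρ).symm)
    exact hs₀I' (this ▸ I.zero_mem)
  have hWstab : ∀ a : A, ∀ w ∈ W, ρ a w ∈ W := by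
    rintro a w ⟨u, rfl⟩
    refine ⟨ρ a u, ?_⟩
    have h1 : (ρ s₀ * ρ a) u = (ρ a * ρ s₀) u := by
      rw [← map_mul, ← map_mul, mul_comm]
    simpa using h1
  obtain ⟨v, hvW, hv0, hv⟩ := exists_common_eigenvector_in ρ (finrank K W) W rfl hWne hWstab
  obtain ⟨φ, hφ⟩ := exists_ringHom_of_common_eigenvector ρ v hv0 hv
  refine ⟨v, φ, hv0, hφ, ?_⟩
  intro s hs
  rw [RingHom.mem_ker] at hs
  by_contra hsI
  obtain ⟨u, rfl⟩ := hvW
  have h1 : ρ (s * s₀) u = 0 := by
    rw [map_mul, Module.End.mul_apply, hφ s, hs, zero_smul]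
  have h2 : u ∈ LinearMap.ker (ρ s₀) := by
    rw [← hker s hsI]
    exact h1
  exact hv0 h2

/-- Abstract Deligne--Serre lifting: a commutative ring `A` of integral elements acting
faithfully on a finite-dimensional space over an algebraically closed field, together with a
maximal ideal `I`, admits a common eigenvector whose eigencharacter takes values in the ring
of algebraic integers and pulls a maximal ideal back to `I`. -/
theorem abstract_lifting [FiniteDimensional K V] (ρ : A →+* Module.End K V)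
    (hρ : Function.Injective ρ) (I : Ideal A) [hI : I.IsMaximal]
    (hint : ∀ a : A, IsIntegral ℤ a) :
    ∃ (v : V) (φ : A →+* integralClosure ℤ K) (𝔪 : Ideal (integralClosure ℤ K)),
      v ≠ 0 ∧ (∀ a, ρ a v = ((φ a : integralClosure ℤ K) : K) • v) ∧
      𝔪.IsMaximal ∧ 𝔪.comap φ = I := by
  have : I.IsPrime := hI.isPrime
  obtain ⟨v, φ₀, hv0, hφ₀, hker⟩ := exists_eigenvector_ker_le ρ hρ I
  let φ : A →+* integralClosure ℤ K :=
    φ₀.codRestrict (integralClosure ℤ K) (fun a => map_isIntegral_int φ₀ (hint a))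
  have hφ : ∀ a, ((φ a : integralClosure ℤ K) : K) = φ₀ a := fun a => rfl
  let _ : Algebra A (integralClosure ℤ K) := φ.toAlgebra
  have : Algebra.IsIntegral A (integralClosure ℤ K) :=
    ⟨fun x => (integralClosure.isIntegral x).tower_top⟩
  have hker' : RingHom.ker (algebraMap A (integralClosure ℤ K)) ≤ I := by
    intro a ha
    apply hker
    rw [RingHom.mem_ker] at ha ⊢
    have : φ a = 0 := ha
    rw [← hφ, this]
    rfl
  obtain ⟨𝔪, h𝔪max, h𝔪⟩ := Ideal.exists_ideal_over_maximal_of_isIntegral I hker'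
  exact ⟨v, φ, 𝔪, hv0, fun a => by rw [hφ]; exact hφ₀ a, h𝔪max, h𝔪⟩

end Lift

end Fermat.Agent.S49
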