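import Mathlib

set_option autoImplicit false

namespace Fermat.Agent.S49

open Module

universe u v w

section Eigen

variable {K : Type u} [Field K] {A : Type v} [CommRing A]

/-- Restriction of a representation `ρ : A →+* End K V` to a stable subspace. -/
noncomputable def restrictRingHom {V : Type w} [AddCommGroup V] [Module K V]
    (ρ : A →+* Module.End K V) (W : Submodule K V) (hW : ∀ a, ∀ x ∈ W, ρ a x ∈ W) :
    A →+* Module.End K W where
  toFun a := (ρ a).restrict (hW a)
  map_one' := by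
    ext x
    simp
  map_mul' a b := by
    ext x
    simp
  map_zero' := by
    ext x
    simp
  map_add' a b := by
    ext x
    simp

theorem restrictRingHom_apply {V : Type w} [AddCommGroup V] [Module K V]
    (ρ : A →+* Module.End K V) (W : Submodule K V) (hW : ∀ a, ∀ x ∈ W, ρ a x ∈ W) (a : A) (x : W) :
    ((restrictRingHom ρ W hW a x : W) : V) = ρ a (x : V) := rfl

end Eigen

section Eigen2

variable {K : Type u} [Field K] [IsAlgClosed K] {A : Type v} [CommRing A]

theorem exists_eigenvector_aux (𝔪 : Ideal A) [h𝔪 : 𝔪.IsPrime] (n : ℕ) :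
    ∀ (V : Type w) [AddCommGroup V] [Module K V] [FiniteDimensional K V]
      (ρ : A →+* Module.End K V), finrank K V = n → RingHom.ker ρ ≤ 𝔪 →
      ∃ (v : V) (χ : A → K), v ≠ 0 ∧ (∀ a, ρ a v = χ a • v) ∧ ∀ a, χ a = 0 → a ∈ 𝔪 := by
  induction n using Nat.strong_induction_on with
  | _ n ih =>
  intro V _ _ _ ρ hn hker
  -- V is nontrivial
  have hnt : Nontrivial V := by
    by_contra hV
    rw [not_nontrivial_iff_subsingleton] at hV
    have : (1 : A) ∈ RingHom.ker ρ := by
      rw [RingHom.mem_ker]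
      ext x
      exact Subsingleton.elim _ _
    exact h𝔪.ne_top ((Ideal.eq_top_iff_one _).mpr (hker this))
  by_cases hsc : ∀ a, ∃ c : K, ρ a = c • (1 : Module.End K V)
  · choose χ hχ using hsc
    obtain ⟨v, hv⟩ := exists_ne (0 : V)
    refine ⟨v, χ, hv, fun a => ?_, fun a ha => ?_⟩
    · rw [hχ a]; simp
    · apply hker
      rw [RingHom.mem_ker, hχ a, ha, zero_smul]
  · push Not at hsc
    obtain ⟨a₀, ha₀⟩ := hsc
    set T := ρ a₀ with hT
    obtain ⟨μ, hμ⟩ := Module.End.exists_eigenvalue T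
    set D : Module.End K V := T - μ • 1 with hD
    have hcomm : ∀ a, Commute (ρ a) D := by
      intro a
      have h1 : Commute (ρ a) T := by
        rw [hT]
        show ρ a * ρ a₀ = ρ a₀ * ρ a
        rw [← map_mul, ← map_mul, mul_comm]
      exact h1.sub_right ((Commute.one_right _).smul_right μ)
    set W₁ : Submodule K V := LinearMap.ker D with hW₁
    set W₂ : Submodule K V := LinearMap.range D with hW₂
    have hW₁stab : ∀ a, ∀ x ∈ W₁, ρ a x ∈ W₁ := by
      intro a x hx
      rw [hW₁, LinearMap.mem_ker] at hx ⊢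
      have := congrArg (fun f : Module.End K V => f x) (hcomm a).eq
      simp only [Module.End.mul_apply] at this
      rw [← this, hx, map_zero]
    have hW₂stab : ∀ a, ∀ x ∈ W₂, ρ a x ∈ W₂ := by
      rintro a x ⟨y, rfl⟩
      refine ⟨ρ a y, ?_⟩
      have := congrArg (fun f : Module.End K V => f y) (hcomm a).eq
      simp only [Module.End.mul_apply] at this
      exact this.symm
    -- dimensions
    have hrn : finrank K W₂ + finrank K W₁ = finrank K V := LinearMap.finrank_range_add_finrank_ker D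
    have hW₁pos : 0 < finrank K W₁ := by
      rw [Module.finrank_pos_iff_exists_ne_zero]
      obtain ⟨x, hx⟩ := hμ.exists_hasEigenvector
      refine ⟨⟨x, ?_⟩, ?_⟩
      · rw [hW₁, LinearMap.mem_ker, hD]
        simp [hx.apply_eq_smul]
      · intro h
        exact hx.2 (congrArg Subtype.val h)
    have hW₂pos : 0 < finrank K W₂ := by
      rw [Module.finrank_pos_iff_exists_ne_zero]
      have hDne : D ≠ 0 := by
        intro h0
        apply ha₀ μ

        exact sub_eq_zero.mp h0
      obtain ⟨x, hx⟩ : ∃ x, D x ≠ 0 := by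
        by_contra hall
        push Not at hall
        exact hDne (LinearMap.ext hall)
      refine ⟨⟨D x, ⟨x, rfl⟩⟩, ?_⟩
      intro h
      exact hx (congrArg Subtype.val h)
    set ρ₁ := restrictRingHom ρ W₁ hW₁stab with hρ₁
    set ρ₂ := restrictRingHom ρ W₂ hW₂stab with hρ₂
    have hprod : ∀ a ∈ RingHom.ker ρ₁, ∀ b ∈ RingHom.ker ρ₂, a * b ∈ RingHom.ker ρ := by
      intro a ha b hb
      rw [RingHom.mem_ker] at ha hb ⊢
      ext x
      rw [map_mul, Module.End.mul_apply, LinearMap.zero_apply]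
      have h2 : ρ b (D x) = 0 := by
        have := congrArg (fun f : Module.End K W₂ => ((f ⟨D x, ⟨x, rfl⟩⟩ : W₂) : V)) hb
        simpa [hρ₂, restrictRingHom_apply] using this
      have h3 : ρ b x ∈ W₁ := by
        rw [hW₁, LinearMap.mem_ker]
        have := congrArg (fun f : Module.End K V => f x) (hcomm b).eq
        simp only [Module.End.mul_apply] at this
        rw [← this, h2]
      have := congrArg (fun f : Module.End K W₁ => ((f ⟨ρ b x, h3⟩ : W₁) : V)) ha
      simpa [hρ₁, restrictRingHom_apply] using this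
    have hor : RingHom.ker ρ₁ ≤ 𝔪 ∨ RingHom.ker ρ₂ ≤ 𝔪 := by
      by_contra hcon
      push Not at hcon
      obtain ⟨h1, h2⟩ := hcon
      obtain ⟨a, ha, ha'⟩ := SetLike.not_le_iff_exists.mp h1
      obtain ⟨b, hb, hb'⟩ := SetLike.not_le_iff_exists.mp h2
      rcases h𝔪.mem_or_mem (hker (hprod a ha b hb)) with h | h
      · exact ha' h
      · exact hb' h
    rcases hor with h1 | h2
    · obtain ⟨v, χ, hv, hχ, hχ0⟩ := ih (finrank K W₁) (by omega) W₁ ρ₁ rfl h1
      refine ⟨(v : V), χ, fun h => hv (Subtype.ext h), fun a => ?_, hχ0⟩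
      have := congrArg (Subtype.val) (hχ a)
      simpa [hρ₁, restrictRingHom_apply] using this
    · obtain ⟨v, χ, hv, hχ, hχ0⟩ := ih (finrank K W₂) (by omega) W₂ ρ₂ rfl h2
      refine ⟨(v : V), χ, fun h => hv (Subtype.ext h), fun a => ?_, hχ0⟩
      have := congrArg (Subtype.val) (hχ a)
      simpa [hρ₂, restrictRingHom_apply] using this

theorem exists_eigenvector_ringHom {V : Type w} [AddCommGroup V] [Module K V]
    [FiniteDimensional K V] (ρ : A →+* Module.End K V) (𝔪 : Ideal A) [h𝔪 : 𝔪.IsPrime]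
    (hker : RingHom.ker ρ ≤ 𝔪) :
    ∃ (v : V) (χ : A →+* K), v ≠ 0 ∧ (∀ a, ρ a v = χ a • v) ∧ RingHom.ker χ ≤ 𝔪 := by
  obtain ⟨v, χ, hv, hχ, hχ0⟩ := exists_eigenvector_aux 𝔪 (finrank K V) V ρ rfl hker
  have hinj : Function.Injective (fun c : K => c • v) := smul_left_injective K hv
  refine ⟨v, ⟨⟨⟨χ, ?_⟩, ?_⟩, ?_, ?_⟩, hv, hχ, ?_⟩
  · apply hinj
    show χ 1 • v = (1 : K) • v
    rw [← hχ 1, map_one, one_smul, Module.End.one_apply]
  · intro a b
    apply hinj
    show χ (a * b) • v = (χ a * χ b) • v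
    rw [← hχ (a * b), map_mul, Module.End.mul_apply, hχ b, map_smul, hχ a, smul_smul, mul_comm]
  · apply hinj
    show χ 0 • v = (0 : K) • v
    rw [← hχ 0, map_zero, zero_smul, LinearMap.zero_apply]
  · intro a b
    apply hinj
    show χ (a + b) • v = (χ a + χ b) • v
    rw [← hχ (a + b), map_add, LinearMap.add_apply, hχ a, hχ b, add_smul]
  · intro a ha
    exact hχ0 a ha

end Eigen2

section Lift

variable {A : Type v} [CommRing A]

theorem exists_maximal_lift (χ : A →+* ℂ) (hint : ∀ a, IsIntegral ℤ (χ a)) (𝔪 : Ideal A)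
    [h𝔪 : 𝔪.IsMaximal] (hker : RingHom.ker χ ≤ 𝔪) :
    ∃ (χ' : A →+* integralClosure ℤ ℂ) (𝔪' : Ideal (integralClosure ℤ ℂ)), 𝔪'.IsMaximal ∧
      (∀ a, ((χ' a : integralClosure ℤ ℂ) : ℂ) = χ a) ∧ ∀ a ∈ 𝔪, χ' a ∈ 𝔪' := by
  let χ' : A →+* integralClosure ℤ ℂ :=
    χ.codRestrict (integralClosure ℤ ℂ).toSubring (fun a => hint a)
  let _ : Algebra A (integralClosure ℤ ℂ) := χ'.toAlgebra
  have hint' : Algebra.IsIntegral A (integralClosure ℤ ℂ) := by
    refine ⟨fun x => ?_⟩
    have hx : IsIntegral ℤ x := (integralClosure.isIntegral x)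
    exact hx.tower_top
  have hker' : RingHom.ker (algebraMap A (integralClosure ℤ ℂ)) ≤ 𝔪 := by
    intro a ha
    apply hker
    rw [RingHom.mem_ker] at ha ⊢
    have : χ' a = 0 := ha
    have h2 := congrArg (fun x : integralClosure ℤ ℂ => (x : ℂ)) this
    exact h2
  obtain ⟨Q, hQmax, hQ⟩ := Ideal.exists_ideal_over_maximal_of_isIntegral 𝔪 hker'
  refine ⟨χ', Q, hQmax, fun a => rfl, fun a ha => ?_⟩
  have : a ∈ Q.comap (algebraMap A (integralClosure ℤ ℂ)) := by rw [hQ]; exact ha
  exact this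

end Lift

section Lattice

variable {V : Type w} [AddCommGroup V] [Module ℂ V]

theorem finiteDimensional_of_lattice (L : Submodule ℤ V) (hLfg : L.FG)
    (hLspan : Submodule.span ℂ (L : Set V) = ⊤) : FiniteDimensional ℂ V := by
  obtain ⟨s, hs⟩ := hLfg
  have h1 : Submodule.span ℂ ((s : Set V)) = ⊤ := by
    rw [eq_top_iff, ← hLspan, Submodule.span_le]
    intro x hx
    rw [← hs] at hx
    exact Submodule.span_subset_span ℤ ℂ _ hx
  exact ⟨⟨s, h1⟩⟩

theorem isIntegral_of_lattice (L : Submodule ℤ V) (hLfg : L.FG)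
    (hLspan : Submodule.span ℂ (L : Set V) = ⊤) (T : Module.End ℂ V)
    (hT : ∀ x ∈ L, T x ∈ L) : IsIntegral ℤ T := by
  have : Module.Finite ℤ L := Module.Finite.iff_fg.mpr hLfg
  let TL : Module.End ℤ L := (T.restrictScalars ℤ).restrict hT
  obtain ⟨P, hPm, hP⟩ := (Module.End.isIntegral (R := ℤ) (M := L)).isIntegral TL
  refine ⟨P, hPm, ?_⟩
  -- `P(T)` vanishes on `L`, hence on its span
  have hval : ∀ (Q : Polynomial ℤ) (x : L),
      (Polynomial.eval₂ (algebraMap ℤ (Module.End ℂ V)) T Q) (x : V) =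
        ((Polynomial.eval₂ (algebraMap ℤ (Module.End ℤ L)) TL Q) x : L) := by
    intro Q
    induction Q using Polynomial.induction_on' with
    | add p q hp hq =>
      intro x
      simp only [Polynomial.eval₂_add, LinearMap.add_apply, hp, hq, Submodule.coe_add]
    | monomial n c =>
      intro x
      simp only [Polynomial.eval₂_monomial]
      induction n generalizing x with
      | zero => simp
      | succ n ihn =>
        rw [pow_succ, pow_succ, ← mul_assoc, ← mul_assoc, Module.End.mul_apply, Module.End.mul_apply]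
        have h1 : T (x : V) = ((TL x : L) : V) := rfl
        rw [h1]
        exact ihn (TL x)
  apply LinearMap.ext
  intro x
  have hx : x ∈ Submodule.span ℂ (L : Set V) := by rw [hLspan]; trivial
  induction hx using Submodule.span_induction with
  | mem y hy =>
    have := hval P ⟨y, hy⟩
    rw [this, hP]
    simp
  | zero => simp
  | add y z _ _ hy hz => rw [map_add, hy, hz]; simp
  | smul c y _ hy => rw [map_smul, hy]; simp

end Lattice

section Main

variable {A : Type v} [CommRing A] {V : Type w} [AddCommGroup V] [Module ℂ V]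

/-- Deligne--Serre lifting lemma, algebraic core.  `A` is a commutative ring acting on a complex
vector space `V` through `ρ`, preserving a finitely generated `ℤ`-lattice `L` spanning `V`.  For
every proper ideal `𝔞` of `A` containing the kernel of the action there is a common eigenvector
whose eigencharacter takes values in the algebraic integers and sends `𝔞` into a maximal ideal. -/
theorem exists_eigen_lift_of_lattice (L : Submodule ℤ V) (hLfg : L.FG)
    (hLspan : Submodule.span ℂ (L : Set V) = ⊤)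
    (ρ : A →+* Module.End ℂ V) (hρL : ∀ a, ∀ x ∈ L, ρ a x ∈ L)
    (𝔞 : Ideal A) (h𝔞 : 𝔞 ≠ ⊤) (hker : RingHom.ker ρ ≤ 𝔞) :
    ∃ (v : V) (χ : A →+* integralClosure ℤ ℂ) (𝔪' : Ideal (integralClosure ℤ ℂ)),
      v ≠ 0 ∧ 𝔪'.IsMaximal ∧
      (∀ a, ρ a v = ((χ a : integralClosure ℤ ℂ) : ℂ) • v) ∧ ∀ a ∈ 𝔞, χ a ∈ 𝔪' := by
  have hfd : FiniteDimensional ℂ V := finiteDimensional_of_lattice L hLfg hLspan
  obtain ⟨𝔪, h𝔪, h𝔞𝔪⟩ := Ideal.exists_le_maximal 𝔞 h𝔞
  have hprime : 𝔪.IsPrime := h𝔪.isPrime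
  obtain ⟨v, χ, hv, hχ, hχker⟩ := exists_eigenvector_ringHom ρ 𝔪 (hker.trans h𝔞𝔪)
  have hint : ∀ a, IsIntegral ℤ (χ a) := by
    intro a
    obtain ⟨P, hPm, hP⟩ := isIntegral_of_lattice L hLfg hLspan (ρ a) (hρL a)
    refine ⟨P, hPm, ?_⟩
    have hev : (ρ a).HasEigenvector (χ a) v := ⟨Module.End.mem_eigenspace_iff.mpr (hχ a), hv⟩
    have h1 := Module.End.aeval_apply_of_hasEigenvector (p := P.map (algebraMap ℤ ℂ)) hev
    rw [Polynomial.aeval_map_algebraMap, Polynomial.aeval_def, hP, LinearMap.zero_apply,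
      Polynomial.eval_map] at h1
    exact (smul_eq_zero.mp h1.symm).resolve_right hv
  obtain ⟨χ', 𝔪', h𝔪', hχ', hmem⟩ := exists_maximal_lift χ hint 𝔪 hχker
  refine ⟨v, χ', 𝔪', hv, h𝔪', fun a => ?_, fun a ha => hmem a (h𝔞𝔪 ha)⟩
  rw [hχ' a, hχ a]

end Main

end Fermat.Agent.S49
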