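import Fermat.Agent.S49.Basic

set_option autoImplicit false

namespace Fermat.Agent.S49

open CuspForm EisensteinWeightOne CongruenceSubgroup ModularFormClass UpperHalfPlane

/-! ### Arithmetic mod 3 -/

theorem chiNegThree_zmod (n : ℕ) : ((chiNegThree n : ℤ) : ZMod 3) = (n : ZMod 3) := by
  have h : (n : ZMod 3) = ((n % 3 : ℕ) : ZMod 3) := (ZMod.natCast_mod n 3).symm
  rw [h]
  unfold chiNegThree
  have h3 : n % 3 < 3 := Nat.mod_lt _ (by norm_num)
  interval_cases n % 3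
  · simp
  · simp
  · simp; decide

theorem exists_three_mul_of_zmod {z : ℤ} (h : (z : ZMod 3) = 0) :
    ∃ m : ℤ, (z : ℂ) = 3 * (m : ℂ) := by
  have : ((3 : ℕ) : ℤ) ∣ z := (ZMod.intCast_zmod_eq_zero_iff_dvd z 3).mp h
  obtain ⟨m, rfl⟩ := this
  exact ⟨m, by push_cast; ring⟩

theorem zmod_eq_zero_of_three_mul {z m : ℤ} (h : (z : ℂ) = 3 * (m : ℂ)) :
    (z : ZMod 3) = 0 := by
  have h' : z = 3 * m := by exact_mod_cast h
  rw [h']
  push_cast
  have : (3 : ZMod 3) = 0 := by decide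
  rw [this, zero_mul]

theorem e1Chi3In_int_eq :
    e1Chi3In ℤ = 1 + PowerSeries.C (3 : ℤ) *
      PowerSeries.mk (fun n => if n = 0 then 0 else 2 * sigmaChi n) := by
  ext n
  simp only [e1Chi3In, e1Chi3, PowerSeries.coeff_map, PowerSeries.coeff_mk, map_add,
    PowerSeries.coeff_one, PowerSeries.coeff_C_mul, Int.coe_castRingHom, Int.cast_id]
  split_ifs <;> ring

theorem bridgeProduct_coeff_sub (a : ℕ → ℤ) (n : ℕ) :
    (3 : ℤ) ∣ (bridgeProduct a).coeff n - a n := by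
  unfold bridgeProduct
  rw [e1Chi3In_int_eq, mul_add, mul_one, ← mul_assoc, mul_comm (PowerSeries.mk a), mul_assoc,
    map_add, PowerSeries.coeff_C_mul, PowerSeries.coeff_mk, add_sub_cancel_left]
  exact dvd_mul_right _ _

/-! ### The Hecke algebra and the mod 3 ideal -/

variable {N : ℕ} [NeZero N]

/-- The weight 2 cusp forms of level `Γ₀(N)`. -/
abbrev VV (N : ℕ) := CuspForm (Gamma0 N) 2

/-- The full Hecke algebra (no primes removed). -/
abbrev TT (N : ℕ) [NeZero N] := CuspForm.heckeAlgebra N 2 (∅ : Set ℕ)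

/-- divisibility by 3 of all q-coefficients -/
def Div3 (g : VV N) : Prop := ∀ n : ℕ, ∃ m : ℤ, qCoeff ⇑g n = 3 * (m : ℂ)

omit [NeZero N] in
theorem div3_add {g g' : VV N} (h : Div3 g) (h' : Div3 g') : Div3 (g + g') := by
  intro n
  obtain ⟨m, hm⟩ := h n
  obtain ⟨m', hm'⟩ := h' n
  exact ⟨m + m', by rw [qc_add, hm, hm']; push_cast; ring⟩

omit [NeZero N] in
theorem div3_zero : Div3 (0 : VV N) := fun n => ⟨0, by rw [qc_zero]; simp⟩

omit [NeZero N] in
/-- a form divisible by 3 is three times a lattice element -/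
theorem div3_exists {g : VV N} (h : Div3 g) :
    ∃ g' ∈ CuspForm.intLattice N 2, g = (3 : ℂ) • g' := by
  refine ⟨(3 : ℂ)⁻¹ • g, ?_, ?_⟩
  · rw [mem_intLattice_iff_qc]
    intro n
    obtain ⟨m, hm⟩ := h n
    exact ⟨m, by rw [qc_smul, hm]; field_simp⟩
  · rw [smul_smul, mul_inv_cancel₀ (by norm_num : (3 : ℂ) ≠ 0), one_smul]

omit [NeZero N] in
theorem div3_three_smul {g : VV N} (h : g ∈ CuspForm.intLattice N 2) : Div3 ((3 : ℂ) • g) := by
  intro n
  obtain ⟨m, hm⟩ := (mem_intLattice_iff_qc g).mp h n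
  exact ⟨m, by rw [qc_smul, hm]⟩

theorem div3_hecke (T : TT N) {g : VV N} (h : Div3 g) :
    Div3 ((T : Module.End ℂ (VV N)) g) := by
  obtain ⟨g', hg', rfl⟩ := div3_exists h
  rw [map_smul]
  exact div3_three_smul (CuspForm.mem_intLattice_of_mem_heckeAlgebra (by norm_num) T.2 hg')

/-- The ideal of Hecke operators killing `f₀` modulo 3. -/
def ideal3 (f₀ : VV N) : Ideal (TT N) where
  carrier := {T | Div3 ((T : Module.End ℂ (VV N)) f₀)}
  add_mem' {S T} hS hT := by
    show Div3 (((S + T : TT N) : Module.End ℂ (VV N)) f₀)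
    have : ((S + T : TT N) : Module.End ℂ (VV N)) f₀ =
        (S : Module.End ℂ (VV N)) f₀ + (T : Module.End ℂ (VV N)) f₀ := rfl
    rw [this]
    exact div3_add hS hT
  zero_mem' := by
    show Div3 (((0 : TT N) : Module.End ℂ (VV N)) f₀)
    have : ((0 : TT N) : Module.End ℂ (VV N)) f₀ = 0 := rfl
    rw [this]
    exact div3_zero
  smul_mem' S {T} hT := by
    show Div3 (((S * T : TT N) : Module.End ℂ (VV N)) f₀)
    have : ((S * T : TT N) : Module.End ℂ (VV N)) f₀ =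
        (S : Module.End ℂ (VV N)) ((T : Module.End ℂ (VV N)) f₀) := rfl
    rw [this]
    exact div3_hecke S hT

theorem mem_ideal3 (f₀ : VV N) (T : TT N) :
    T ∈ ideal3 f₀ ↔ Div3 ((T : Module.End ℂ (VV N)) f₀) := Iff.rfl

end Fermat.Agent.S49
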