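import Fermat.Agent.S49.Hecke

set_option autoImplicit false

namespace Fermat.Agent.S49

open CuspForm EisensteinWeightOne CongruenceSubgroup ModularFormClass UpperHalfPlane

variable {N : ℕ} [NeZero N]

theorem coe_algebraMap_apply (z : ℤ) (g : VV N) :
    ((algebraMap ℤ (TT N) z : TT N) : Module.End ℂ (VV N)) g = (z : ℂ) • g := by
  have : ((algebraMap ℤ (TT N) z : TT N) : Module.End ℂ (VV N)) =
      algebraMap ℤ (Module.End ℂ (VV N)) z := rfl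
  rw [this, Module.algebraMap_end_apply, Int.cast_smul_eq_zsmul]

section

variable {f₀ : VV N} {af a : ℕ → ℤ} (hf₀ : ∀ n, qCoeff ⇑f₀ n = (af n : ℂ))
  (haf : ∀ n, (af n : ZMod 3) = (a n : ZMod 3))
  (heig : FormalHecke.IsEigensystem
      (fun ℓ => if ℓ ∣ N then 0 else ((chiNegThree ℓ : ℤ) : ℤ)) a)

include hf₀ haf heig

theorem T_sub_mem_ideal3 {ℓ : ℕ} (hℓ : ℓ.Prime) (hℓN : ¬ ℓ ∣ N) :
    (heckeAlgebra.T hℓ hℓN (Set.notMem_empty ℓ) : TT N) - algebraMap ℤ (TT N) (a ℓ)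
      ∈ ideal3 f₀ := by
  rw [mem_ideal3]
  intro n
  have h1 := congrArg (Int.cast : ℤ → ZMod 3) (heig.2 ℓ hℓ n)
  simp only [if_neg hℓN] at h1
  have hcoe : (((heckeAlgebra.T hℓ hℓN (Set.notMem_empty ℓ) : TT N) -
      algebraMap ℤ (TT N) (a ℓ) : TT N) : Module.End ℂ (VV N)) f₀ =
      heckeTLin 2 hℓ hℓN f₀ - ((a ℓ : ℤ) : ℂ) • f₀ := by
    rw [← coe_algebraMap_apply]
    rfl
  have key : qCoeff ⇑((((heckeAlgebra.T hℓ hℓN (Set.notMem_empty ℓ) : TT N) -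
      algebraMap ℤ (TT N) (a ℓ) : TT N) : Module.End ℂ (VV N)) f₀) n =
      ((af (n * ℓ) + (if ℓ ∣ n then (ℓ : ℤ) * af (n / ℓ) else 0) - a ℓ * af n : ℤ) : ℂ) := by
    rw [hcoe, qc_sub, qc_smul, qc_heckeT, hf₀, hf₀, hf₀]
    split_ifs <;> push_cast <;> norm_num
  rw [key]
  apply exists_three_mul_of_zmod
  by_cases hd : ℓ ∣ n
  · simp only [if_pos hd] at h1 ⊢
    push_cast at h1 ⊢
    rw [haf, haf, haf, ← chiNegThree_zmod ℓ, mul_comm n ℓ, ← h1]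
    ring
  · simp only [if_neg hd] at h1 ⊢
    push_cast at h1 ⊢
    rw [haf, haf, mul_comm n ℓ, ← h1]
    ring

theorem U_sub_mem_ideal3 {ℓ : ℕ} (hℓ : ℓ.Prime) (hℓN : ℓ ∣ N) :
    (heckeAlgebra.U hℓ hℓN (Set.notMem_empty ℓ) : TT N) - algebraMap ℤ (TT N) (a ℓ)
      ∈ ideal3 f₀ := by
  rw [mem_ideal3]
  intro n
  have h1 := congrArg (Int.cast : ℤ → ZMod 3) (heig.2 ℓ hℓ n)
  simp only [if_pos hℓN, zero_mul, add_zero] at h1
  have hcoe : (((heckeAlgebra.U hℓ hℓN (Set.notMem_empty ℓ) : TT N) -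
      algebraMap ℤ (TT N) (a ℓ) : TT N) : Module.End ℂ (VV N)) f₀ =
      heckeULin 2 hℓN f₀ - ((a ℓ : ℤ) : ℂ) • f₀ := by
    rw [← coe_algebraMap_apply]
    rfl
  have key : qCoeff ⇑((((heckeAlgebra.U hℓ hℓN (Set.notMem_empty ℓ) : TT N) -
      algebraMap ℤ (TT N) (a ℓ) : TT N) : Module.End ℂ (VV N)) f₀) n =
      ((af (n * ℓ) - a ℓ * af n : ℤ) : ℂ) := by
    rw [hcoe, qc_sub, qc_smul, qc_heckeU hℓ.ne_zero, hf₀, hf₀]
    push_cast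
    ring
  rw [key]
  apply exists_three_mul_of_zmod
  push_cast at h1 ⊢
  rw [haf, haf, mul_comm n ℓ, ← h1]
  ring

end

end Fermat.Agent.S49
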