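import Fermat.Agent.S49.Hecke2

set_option autoImplicit false

namespace Fermat.Agent.S49

open CuspForm EisensteinWeightOne CongruenceSubgroup ModularFormClass UpperHalfPlane

variable {N : ℕ} [NeZero N]

section

variable {f₀ : VV N} {af a : ℕ → ℤ} (hf₀ : ∀ n, qCoeff ⇑f₀ n = (af n : ℂ))
  (haf : ∀ n, (af n : ZMod 3) = (a n : ZMod 3))
  (heig : FormalHecke.IsEigensystem
      (fun ℓ => if ℓ ∣ N then 0 else ((chiNegThree ℓ : ℤ) : ℤ)) a)

include hf₀ in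
theorem algebraMap_mem_ideal3 {z : ℤ} (hz : (z : ZMod 3) = 0) :
    algebraMap ℤ (TT N) z ∈ ideal3 f₀ := by
  rw [mem_ideal3]
  intro n
  rw [coe_algebraMap_apply, qc_smul, hf₀]
  have : ((z * af n : ℤ) : ZMod 3) = 0 := by
    push_cast
    rw [hz, zero_mul]
  obtain ⟨m, hm⟩ := exists_three_mul_of_zmod this
  exact ⟨m, by rw [← hm]; push_cast; ring⟩

include hf₀ haf heig in
theorem one_notMem_ideal3 : (1 : TT N) ∉ ideal3 f₀ := by
  intro h
  rw [mem_ideal3] at h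
  obtain ⟨m, hm⟩ := h 1
  have h1 : ((1 : TT N) : Module.End ℂ (VV N)) f₀ = f₀ := rfl
  rw [h1, hf₀] at hm
  have h2 := zmod_eq_zero_of_three_mul hm
  rw [haf, heig.1] at h2
  revert h2
  decide

include hf₀ haf heig in
theorem exists_int_sub_mem_ideal3 (T : TT N) :
    ∃ z : ℤ, T - algebraMap ℤ (TT N) z ∈ ideal3 f₀ := by
  obtain ⟨x, hx⟩ := T
  induction hx using Algebra.adjoin_induction with
  | mem x hx =>
    rcases hx with ⟨ℓ, hℓ, hℓN, -, rfl⟩ | ⟨q, hqN, hq, -, rfl⟩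
    · exact ⟨a ℓ, T_sub_mem_ideal3 hf₀ haf heig hℓ hℓN⟩
    · exact ⟨a q, U_sub_mem_ideal3 hf₀ haf heig hq hqN⟩
  | algebraMap r =>
    refine ⟨r, ?_⟩
    have : (⟨algebraMap ℤ (Module.End ℂ (VV N)) r, Subalgebra.algebraMap_mem _ r⟩ : TT N) =
        algebraMap ℤ (TT N) r := rfl
    rw [this, sub_self]
    exact (ideal3 f₀).zero_mem
  | add x y hx hy ihx ihy =>
    obtain ⟨zx, hzx⟩ := ihx
    obtain ⟨zy, hzy⟩ := ihy
    refine ⟨zx + zy, ?_⟩
    have : (⟨x + y, add_mem hx hy⟩ : TT N) - algebraMap ℤ (TT N) (zx + zy) =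
        ((⟨x, hx⟩ : TT N) - algebraMap ℤ (TT N) zx) +
          ((⟨y, hy⟩ : TT N) - algebraMap ℤ (TT N) zy) := by
      rw [map_add]
      have : (⟨x + y, add_mem hx hy⟩ : TT N) = (⟨x, hx⟩ : TT N) + ⟨y, hy⟩ := rfl
      rw [this]
      ring
    rw [this]
    exact (ideal3 f₀).add_mem hzx hzy
  | mul x y hx hy ihx ihy =>
    obtain ⟨zx, hzx⟩ := ihx
    obtain ⟨zy, hzy⟩ := ihy
    refine ⟨zx * zy, ?_⟩
    have : (⟨x * y, mul_mem hx hy⟩ : TT N) - algebraMap ℤ (TT N) (zx * zy) =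
        (⟨x, hx⟩ : TT N) * ((⟨y, hy⟩ : TT N) - algebraMap ℤ (TT N) zy) +
          ((⟨x, hx⟩ : TT N) - algebraMap ℤ (TT N) zx) * algebraMap ℤ (TT N) zy := by
      rw [map_mul]
      have : (⟨x * y, mul_mem hx hy⟩ : TT N) = (⟨x, hx⟩ : TT N) * ⟨y, hy⟩ := rfl
      rw [this]
      ring
    rw [this]
    exact (ideal3 f₀).add_mem ((ideal3 f₀).mul_mem_left _ hzy) ((ideal3 f₀).mul_mem_right _ hzx)

include hf₀ haf heig in
theorem ideal3_isMaximal : (ideal3 f₀).IsMaximal := by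
  rw [Ideal.isMaximal_iff]
  refine ⟨one_notMem_ideal3 hf₀ haf heig, ?_⟩
  intro J x hIJ hxI hxJ
  obtain ⟨z, hz⟩ := exists_int_sub_mem_ideal3 hf₀ haf heig x
  have hz3 : (z : ZMod 3) ≠ 0 := by
    intro h0
    apply hxI
    have := (ideal3 f₀).add_mem hz (algebraMap_mem_ideal3 hf₀ h0)
    simpa using this
  have hsq : ((z * z - 1 : ℤ) : ZMod 3) = 0 := by
    push_cast
    generalize (z : ZMod 3) = w at hz3
    revert w
    decide
  have h3 := algebraMap_mem_ideal3 hf₀ hsq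
  -- 1 = z * z - (z*z - 1), z = x - (x - z)
  have hzJ : algebraMap ℤ (TT N) z ∈ J := by
    have : algebraMap ℤ (TT N) z = x - (x - algebraMap ℤ (TT N) z) := by ring
    rw [this]
    exact J.sub_mem hxJ (hIJ hz)
  have : (1 : TT N) = algebraMap ℤ (TT N) z * algebraMap ℤ (TT N) z -
      algebraMap ℤ (TT N) (z * z - 1) := by
    rw [map_sub, map_mul, map_one]
    ring
  rw [this]
  exact J.sub_mem (J.mul_mem_left _ hzJ) (hIJ h3)

end

end Fermat.Agent.S49
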