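import Mathlib

set_option autoImplicit false

namespace Fermat.Agent.S49

open Module

section CommonEigen

variable {K V A : Type*} [Field K] [IsAlgClosed K] [AddCommGroup V] [Module K V]
  [CommRing A]

/-- A commuting family of operators (given by a ring hom from a commutative ring) stabilising a
nonzero finite-dimensional subspace `W` has a common eigenvector inside `W`. -/
theorem exists_common_eigenvector_in (ρ : A →+* Module.End K V) :
    ∀ (n : ℕ) (W : Submodule K V) [FiniteDimensional K W], finrank K W = n → W ≠ ⊥ →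
      (∀ a : A, ∀ w ∈ W, ρ a w ∈ W) →
      ∃ v ∈ W, v ≠ 0 ∧ ∀ a : A, ∃ μ : K, ρ a v = μ • v := by
  intro n
  induction n using Nat.strong_induction_on with
  | _ n ih =>
    intro W _ hn hW hstab
    by_cases hscal : ∀ a : A, ∃ μ : K, ∀ w ∈ W, ρ a w = μ • w
    · obtain ⟨v, hvW, hv0⟩ := Submodule.exists_mem_ne_zero_of_ne_bot hW
      refine ⟨v, hvW, hv0, fun a => ?_⟩
      obtain ⟨μ, hμ⟩ := hscal a
      exact ⟨μ, hμ v hvW⟩
    · push Not at hscal
      obtain ⟨a, ha⟩ := hscal
      -- restrict `ρ a` to `W` and find an eigenvalue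
      let fa : Module.End K W := (ρ a).restrict (hstab a)
      have : Nontrivial W := Submodule.nontrivial_iff_ne_bot.mpr hW
      obtain ⟨μ, hμ⟩ := Module.End.exists_eigenvalue fa
      obtain ⟨w₀, hw₀⟩ := hμ.exists_hasEigenvector
      have hw₀ne : (w₀ : V) ≠ 0 := by
        intro h
        exact hw₀.2 (Subtype.ext h)
      have hw₀eig : ρ a (w₀ : V) = μ • (w₀ : V) := by
        have := hw₀.apply_eq_smul
        have h2 := congrArg Subtype.val this
        simpa [fa] using h2
      -- the smaller subspace
      let W' : Submodule K V := W ⊓ LinearMap.ker (ρ a - μ • (1 : Module.End K V))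
      have hW'le : W' ≤ W := inf_le_left
      have hmemW' : ∀ w, w ∈ W' ↔ w ∈ W ∧ ρ a w = μ • w := by
        intro w
        simp only [W', Submodule.mem_inf, LinearMap.mem_ker, LinearMap.sub_apply,
          LinearMap.smul_apply, Module.End.one_apply, sub_eq_zero]
      have hW'lt : W' < W := by
        refine lt_of_le_of_ne hW'le ?_
        intro hEq
        obtain ⟨w, hwW, hw⟩ := ha μ
        have : w ∈ W' := hEq ▸ hwW
        exact hw ((hmemW' w).1 this).2
      have hW'ne : W' ≠ ⊥ := by
        intro h
        have : (w₀ : V) ∈ W' := (hmemW' _).2 ⟨w₀.2, hw₀eig⟩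
        rw [h, Submodule.mem_bot] at this
        exact hw₀ne this
      have hW'stab : ∀ b : A, ∀ w ∈ W', ρ b w ∈ W' := by
        intro b w hw
        rw [hmemW'] at hw ⊢
        refine ⟨hstab b w hw.1, ?_⟩
        have hcomm : ρ a (ρ b w) = ρ b (ρ a w) := by
          have h1 : (ρ a * ρ b) w = (ρ b * ρ a) w := by
            rw [← map_mul, ← map_mul, mul_comm]
          simpa using h1
        rw [hcomm, hw.2, map_smul]
      have : FiniteDimensional K W' := Submodule.finiteDimensional_of_le hW'le
      have hlt : finrank K W' < n := hn ▸ Submodule.finrank_lt_finrank_of_lt hW'lt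
      obtain ⟨v, hvW', hv0, hv⟩ := ih (finrank K W') hlt W' rfl hW'ne hW'stab
      exact ⟨v, hW'le hvW', hv0, hv⟩

end CommonEigen

end Fermat.Agent.S49
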